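import Mathlib.Algebra.Algebra.Rat
import Mathlib.RingTheory.Finiteness.Cofinite
import Mathlib.RingTheory.Noetherian.Basic
import Mathlib.RingTheory.PrincipalIdealDomain
import Mathlib.LinearAlgebra.Span.Basic
import Mathlib.RingTheory.Int.Basic

/-!
# Lattices stable under an order

A lattice is a finitely generated subgroup with a nonzero multiple of every vector. Boundedly many
classes means: after an automorphism every stable lattice is within a fixed factor of a fixed one.
Then there are finitely many classes.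
-/

set_option autoImplicit false
set_option linter.style.haveILetI false

noncomputable section

namespace FA.JordanZassenhaus

variable {A : Type*} [Ring A] {V : Type*} [AddCommGroup V]

/-- A lattice: finitely generated, with a nonzero multiple of every vector. -/
def IsFull (L : Submodule ℤ V) : Prop := L.FG ∧ ∀ v : V, ∃ n : ℕ, n ≠ 0 ∧ n • v ∈ L

/-- `L` and `B` contain the multiples by `k` of each other. -/
def IsNear (B : Submodule ℤ V) (k : ℕ) (L : Submodule ℤ V) : Prop :=
  (∀ x ∈ L, k • x ∈ B) ∧ ∀ x ∈ B, k • x ∈ L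

theorem IsNear.trans_mul {B L : Submodule ℤ V} {k : ℕ} (h : IsNear B k L) (l : ℕ) :
    IsNear B (l * k) L :=
  ⟨fun x hx => by rw [mul_smul]; exact nsmul_mem (h.1 x hx) l,
    fun x hx => by rw [mul_smul]; exact nsmul_mem (h.2 x hx) l⟩

/-- Finitely many vectors have a common nonzero multiple in a lattice. -/
theorem IsFull.exists_nsmul_mem {L : Submodule ℤ V} (hL : IsFull L) {ι : Type*} [Finite ι]
    (v : ι → V) : ∃ n : ℕ, n ≠ 0 ∧ ∀ i, n • v i ∈ L := by
  haveI := Fintype.ofFinite ι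
  choose m hm0 hm using fun i => hL.2 (v i)
  refine ⟨∏ i, m i, Finset.prod_ne_zero_iff.2 fun i _ => hm0 i, fun i => ?_⟩
  classical
  rw [← Finset.mul_prod_erase _ _ (Finset.mem_univ i), mul_comm, mul_smul]
  exact nsmul_mem (hm i) _

/-- A finitely generated subgroup has a nonzero multiple in a lattice. -/
theorem IsFull.exists_nsmul_le {B L : Submodule ℤ V} (hB : IsFull B) (hL : L.FG) :
    ∃ n : ℕ, n ≠ 0 ∧ ∀ x ∈ L, n • x ∈ B := by
  obtain ⟨s, hs⟩ := hL
  obtain ⟨n, hn, h⟩ := hB.exists_nsmul_mem fun x : s => (x : V)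
  refine ⟨n, hn, fun x hx => ?_⟩
  rw [← hs] at hx
  induction hx using Submodule.span_induction with
  | mem y hy => exact h ⟨y, hy⟩
  | zero => simp
  | add y z _ _ hy hz => rw [smul_add]; exact add_mem hy hz
  | smul c y _ hy => rw [smul_comm]; exact B.smul_mem c hy

/-- **There are finitely many subgroups near a lattice.** -/
theorem finite_setOf_isNear [IsAddTorsionFree V] {B : Submodule ℤ V} (hB : B.FG) {k : ℕ}
    (hk : k ≠ 0) : {L : Submodule ℤ V | IsNear B k L}.Finite := by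
  obtain ⟨n, g, hg⟩ := Submodule.fg_iff_exists_fin_generating_family.1 hB
  haveI : NeZero (k * k) := ⟨mul_ne_zero hk hk⟩
  let comb : (Fin n → Fin (k * k)) → V := fun c => ∑ i, (c i : ℕ) • g i
  let code : Submodule ℤ V → Set (Fin n → Fin (k * k)) := fun L =>
    {c | ∃ x ∈ L, k • x = comb c}
  refine Set.Finite.of_finite_image (f := code) (Set.toFinite _) fun L hL L' hL' h => ?_
  have key : ∀ L₁ L₂ : Submodule ℤ V, IsNear B k L₁ → IsNear B k L₂ → code L₁ = code L₂ →
      L₁ ≤ L₂ := by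
    intro L₁ L₂ h₁ h₂ he x hx
    have hxB := h₁.1 x hx
    rw [← hg, Submodule.mem_span_range_iff_exists_fun] at hxB
    obtain ⟨c, hc⟩ := hxB
    have hkk : (0 : ℤ) < (k * k : ℕ) := by exact_mod_cast Nat.pos_of_ne_zero (NeZero.ne (k * k))
    let r : Fin n → Fin (k * k) := fun i => ⟨(c i % (k * k : ℕ)).toNat, by
      have h1 := Int.emod_nonneg (c i) hkk.ne'
      have h2 := Int.emod_lt_of_pos (c i) hkk
      omega⟩
    set q : V := ∑ i, (c i / (k * k : ℕ)) • g i
    have hqB : q ∈ B := hg ▸ Submodule.mem_span_range_iff_exists_fun ℤ |>.2 ⟨_, rfl⟩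
    have hsum : k • x = comb r + k • (k • q) := by
      rw [← hc, ← mul_smul]
      show _ = (∑ i, _) + (k * k) • ∑ i, _
      rw [Finset.smul_sum, ← Finset.sum_add_distrib]
      refine Finset.sum_congr rfl fun i _ => ?_
      rw [← natCast_zsmul, ← natCast_zsmul, ← mul_smul, ← add_smul]
      congr 1
      show c i = ((c i % (k * k : ℕ)).toNat : ℤ) + _
      rw [Int.toNat_of_nonneg (Int.emod_nonneg (c i) hkk.ne'), Int.emod_add_mul_ediv]
    have hr : r ∈ code L₁ := ⟨x - k • q, sub_mem hx (h₁.2 q hqB), by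
      rw [smul_sub, hsum, add_sub_cancel_right]⟩
    rw [he] at hr
    obtain ⟨y, hy, hy'⟩ := hr
    have : x = y + k • q := nsmul_right_injective hk (by
      show k • x = k • (y + k • q)
      rw [smul_add, hy', hsum])
    exact this ▸ add_mem hy (h₂.2 q hqB)
  exact le_antisymm (key L L' hL hL' h) (key L' L hL' hL h.symm)

variable [Module A V]

/-- Stable under the elements of `R`. -/
def IsStable (R : Submodule ℤ A) (L : Submodule ℤ V) : Prop := ∀ r ∈ R, ∀ x ∈ L, r • x ∈ L

theorem IsStable.map {W : Type*} [AddCommGroup W] [Module A W] {R : Submodule ℤ A}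
    {L : Submodule ℤ V} (hL : IsStable R L) (f : V →ₗ[A] W) :
    IsStable R (L.map (f.toAddMonoidHom.toIntLinearMap)) := by
  rintro r hr _ ⟨x, hx, rfl⟩
  exact ⟨r • x, hL r hr x hx, f.map_smul r x⟩

/-- Every stable lattice is, up to automorphisms, within a fixed factor of a fixed one. -/
def HasBoundedClasses (R : Submodule ℤ A) (V : Type*) [AddCommGroup V] [Module A V] : Prop :=
  ∃ B : Submodule ℤ V, IsFull B ∧ ∃ k : ℕ, k ≠ 0 ∧ ∀ L : Submodule ℤ V, IsFull L → IsStable R L →
    ∃ φ : V ≃ₗ[A] V, (∀ x ∈ L, k • φ x ∈ B) ∧ ∀ x ∈ B, k • φ.symm x ∈ L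

theorem IsFull.map {W : Type*} [AddCommGroup W] {L : Submodule ℤ V} (hL : IsFull L)
    (f : V →ₗ[ℤ] W) (hf : Function.Surjective f) : IsFull (L.map f) := by
  refine ⟨hL.1.map f, fun w => ?_⟩
  obtain ⟨v, rfl⟩ := hf w
  obtain ⟨n, hn, h⟩ := hL.2 v
  exact ⟨n, hn, n • v, h, map_nsmul f n v⟩

theorem IsFull.comap {W : Type*} [AddCommGroup W] {L : Submodule ℤ V} (hL : IsFull L)
    (f : W →ₗ[ℤ] V) (hf : Function.Injective f) : IsFull (L.comap f) := by
  refine ⟨Submodule.fg_of_fg_map_injective f hf ?_, fun w => ?_⟩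
  · haveI := isNoetherian_of_fg_of_noetherian L hL.1
    exact Submodule.FG.of_le hL.1 (Submodule.map_comap_le f L)
  · obtain ⟨n, hn, h⟩ := hL.2 (f w)
    exact ⟨n, hn, by rwa [Submodule.mem_comap, map_nsmul]⟩

theorem HasBoundedClasses.congr {R : Submodule ℤ A} {W : Type*} [AddCommGroup W] [Module A W]
    (h : HasBoundedClasses R V) (e : V ≃ₗ[A] W) : HasBoundedClasses R W := by
  obtain ⟨B, hB, k, hk, h⟩ := h
  refine ⟨B.map e.toAddEquiv.toIntLinearEquiv.toLinearMap, hB.map _ e.surjective, k, hk,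
    fun L hL hst => ?_⟩
  obtain ⟨φ, h1, h2⟩ := h (L.map e.symm.toAddEquiv.toIntLinearEquiv.toLinearMap)
    (hL.map _ e.symm.surjective) (hst.map e.symm.toLinearMap)
  refine ⟨(e.symm.trans φ).trans e,
    fun x hx => ⟨k • φ (e.symm x), h1 _ ⟨x, hx, rfl⟩, map_nsmul e k _⟩, ?_⟩
  rintro _ ⟨b, hb, rfl⟩
  obtain ⟨x, hx, he⟩ := h2 b hb
  have he' : e.symm x = k • φ.symm b := he
  show k • e (φ.symm (e.symm (e b))) ∈ L
  rw [e.symm_apply_apply, ← map_nsmul, ← he', e.apply_symm_apply]
  exact hx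

/-- **Bounded classes give finitely many classes.** -/
theorem HasBoundedClasses.exists_finite [IsAddTorsionFree V] {R : Submodule ℤ A}
    (h : HasBoundedClasses R V) :
    ∃ F : Finset (Submodule ℤ V), ∀ L : Submodule ℤ V, IsFull L → IsStable R L →
      ∃ φ : V ≃ₗ[A] V, L.map φ.toAddEquiv.toIntLinearEquiv.toLinearMap ∈ F := by
  obtain ⟨B, hB, k, hk, h⟩ := h
  refine ⟨(finite_setOf_isNear hB.1 hk).toFinset, fun L hL hst => ?_⟩
  obtain ⟨φ, h1, h2⟩ := h L hL hst
  refine ⟨φ, (Set.Finite.mem_toFinset _).2 ⟨?_, fun x hx => ⟨k • φ.symm x, h2 x hx, ?_⟩⟩⟩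
  · rintro _ ⟨x, hx, rfl⟩
    exact h1 x hx
  · show φ (k • φ.symm x) = k • x
    rw [map_nsmul, φ.apply_symm_apply]

end FA.JordanZassenhaus

end
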