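import Fermat.Agent.JordanZassenhaus.Basic
import Mathlib.LinearAlgebra.FreeModule.Finite.CardQuotient
import Mathlib.LinearAlgebra.Matrix.AbsoluteValue
import Mathlib.LinearAlgebra.Matrix.ToLinearEquiv
import Mathlib.Algebra.CharP.Algebra
import Mathlib.Tactic

/-!
# Lattices in a division algebra

If `Λ` is stable under right multiplication by a fixed lattice, a pigeonhole argument gives `x ∈ Λ`
such that `x` times the lattice has bounded index in `Λ`; so the classes of such lattices under left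
multiplication are bounded. In particular every order has finitely many classes of one-sided ideals.
-/

set_option autoImplicit false
set_option linter.style.haveILetI false

noncomputable section

open Module

namespace FA.JordanZassenhaus

/-- A subgroup of finite index of `ℤ ^ n` has a small nonzero vector. -/
theorem exists_small_mem {n : ℕ} (hn : n ≠ 0) (H : AddSubgroup (Fin n → ℤ)) (hH : H.index ≠ 0) :
    ∃ m : ℕ, m ≠ 0 ∧ m ^ n ≤ H.index ∧ ∃ x ∈ H, x ≠ 0 ∧ ∀ i, |x i| ≤ (m : ℤ) := by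
  classical
  have hex : ∃ m : ℕ, H.index < (m + 1) ^ n :=
    ⟨H.index, Nat.lt_of_succ_le (Nat.le_self_pow hn _)⟩
  set m := Nat.find hex with hm
  have hm0 : m ≠ 0 := fun h => by
    have := Nat.find_spec hex
    rw [← hm, h] at this
    simp only [zero_add, one_pow] at this
    omega
  refine ⟨m, hm0, ?_, ?_⟩
  · have := Nat.find_min hex (show m - 1 < m by omega)
    rw [not_lt, Nat.sub_add_cancel (Nat.pos_of_ne_zero hm0)] at this
    exact this
  haveI : Finite ((Fin n → ℤ) ⧸ H) := Nat.finite_of_card_ne_zero hH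
  obtain ⟨c, c', hne, he⟩ : ∃ c c' : Fin n → Fin (m + 1), c ≠ c' ∧
      QuotientAddGroup.mk' H (fun i => ((c i : ℕ) : ℤ)) =
        QuotientAddGroup.mk' H (fun i => ((c' i : ℕ) : ℤ)) := by
    by_contra! h
    have hle := Nat.card_le_card_of_injective
      (fun c : Fin n → Fin (m + 1) => QuotientAddGroup.mk' H (fun i => ((c i : ℕ) : ℤ)))
      fun c c' he => by_contra fun hne => h c c' hne he
    rw [Nat.card_pi, Finset.prod_const, Nat.card_eq_fintype_card, Fintype.card_fin,
      Finset.card_univ, Fintype.card_fin, ← AddSubgroup.index_eq_card] at hle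
    exact absurd hle (not_le.2 (Nat.find_spec hex))
  refine ⟨fun i => ((c i : ℕ) : ℤ) - ((c' i : ℕ) : ℤ), ?_, fun h => hne (funext fun i => ?_),
    fun i => ?_⟩
  · exact (QuotientAddGroup.eq_iff_sub_mem).1 he
  · have := congrFun h i
    simp only [Pi.zero_apply, sub_eq_zero, Nat.cast_inj] at this
    exact Fin.ext this
  · have h1 := (c i).2
    have h2 := (c' i).2
    show |((c i : ℕ) : ℤ) - ((c' i : ℕ) : ℤ)| ≤ _
    rw [abs_le]
    constructor <;> omega

variable {D : Type*} [DivisionRing D] [Algebra ℚ D] [FiniteDimensional ℚ D]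

/-- **Bounded classes in a division algebra.** -/
theorem exists_division_bound :
    ∃ B : Submodule ℤ D, IsFull B ∧ ∀ M : ℕ, M ≠ 0 → ∃ k : ℕ, k ≠ 0 ∧
      ∀ Λ : Submodule ℤ D, IsFull Λ → (∀ y ∈ Λ, ∀ b ∈ B, M • (y * b) ∈ Λ) →
        ∃ d : D, d ≠ 0 ∧ (∀ y ∈ Λ, k • (d * y) ∈ B) ∧ ∀ b ∈ B, k • (d⁻¹ * b) ∈ Λ := by
  classical
  set N := finrank ℚ D
  have hN : N ≠ 0 := Module.finrank_pos.ne'
  let s : Basis (Fin N) ℚ D := Module.finBasis ℚ D
  haveI : IsAddTorsionFree D := by
    haveI : CharZero D := charZero_of_injective_algebraMap (algebraMap ℚ D).injective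
    infer_instance
  let e : (Fin N → ℤ) →ₗ[ℤ] D := Fintype.linearCombination ℤ (fun i => s i)
  have he : ∀ c, e c = ∑ i, c i • s i := fun c => rfl
  have heinj : Function.Injective e := (injective_iff_map_eq_zero e).2 fun c hc => by
    have h : ∑ i, ((c i : ℚ)) • s i = 0 := by
      rw [he] at hc
      simpa [Int.cast_smul_eq_zsmul] using hc
    exact funext fun i => Int.cast_eq_zero.1 (Fintype.linearIndependent_iff.1 s.linearIndependent _ h i)
  set B : Submodule ℤ D := Submodule.span ℤ (Set.range s)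
  have hB : ∀ x, x ∈ B ↔ ∃ c, e c = x := fun x => Submodule.mem_span_range_iff_exists_fun ℤ
  have hBfull : IsFull B := by
    refine ⟨Submodule.fg_span (Set.finite_range s), fun v => ?_⟩
    refine ⟨∏ i, (s.repr v i).den, Finset.prod_ne_zero_iff.2 fun i _ => (s.repr v i).den_nz, ?_⟩
    have hv : (∏ i, (s.repr v i).den) • v =
        ∑ i, (((∏ j ∈ Finset.univ.erase i, (s.repr v j).den : ℕ) : ℤ) * (s.repr v i).num) • s i := by
      conv_lhs =>
        arg 2
        rw [← s.sum_repr v]
      rw [Finset.smul_sum]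
      refine Finset.sum_congr rfl fun i _ => ?_
      rw [← Int.cast_smul_eq_zsmul ℚ, ← Nat.cast_smul_eq_nsmul ℚ, smul_smul]
      congr 1
      rw [← Finset.mul_prod_erase _ _ (Finset.mem_univ i)]
      push_cast
      linear_combination (∏ j ∈ Finset.univ.erase i, ((s.repr v j).den : ℚ)) *
        Rat.mul_den_eq_num (s.repr v i)
    exact hv ▸ (hB _).2 ⟨_, (he _)⟩
  -- structure constants
  obtain ⟨M₀, hM₀, hmul⟩ := hBfull.exists_nsmul_mem fun p : Fin N × Fin N => s p.1 * s p.2
  choose γ hγ using fun p : Fin N × Fin N => (hB _).1 (hmul p)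
  set Γ : ℕ := ∑ p : Fin N × Fin N, ∑ j, (γ p j).natAbs
  refine ⟨B, hBfull, fun M hM => ?_⟩
  set C : ℕ := N.factorial * (N * M * Γ + 1) ^ N
  refine ⟨Nat.factorial C * (M₀ * M), mul_ne_zero (Nat.factorial_ne_zero C) (mul_ne_zero hM₀ hM),
    fun Λ hΛ hst => ?_⟩
  -- scale into `B`
  obtain ⟨n, hn, hnB⟩ := hBfull.exists_nsmul_le hΛ.1
  let H : AddSubgroup (Fin N → ℤ) :=
    { carrier := {c | ∃ y ∈ Λ, n • y = e c}
      add_mem' := by
        rintro a b ⟨y, hy, h⟩ ⟨z, hz, h'⟩
        exact ⟨y + z, add_mem hy hz, by rw [smul_add, h, h', map_add]⟩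
      zero_mem' := ⟨0, zero_mem _, by rw [smul_zero, map_zero]⟩
      neg_mem' := by
        rintro a ⟨y, hy, h⟩
        exact ⟨-y, neg_mem hy, by rw [smul_neg, h, map_neg]⟩ }
  have hH : H.index ≠ 0 := by
    obtain ⟨l, hl, hls⟩ := hΛ.exists_nsmul_mem fun i => s i
    haveI : NeZero (n * l) := ⟨mul_ne_zero hn hl⟩
    rw [AddSubgroup.index_eq_card]
    haveI : Finite ((Fin N → ℤ) ⧸ H) := Finite.of_surjective
      (fun c : Fin N → Fin (n * l) => QuotientAddGroup.mk' H fun i => ((c i : ℕ) : ℤ)) fun q => by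
        obtain ⟨c, rfl⟩ := QuotientAddGroup.mk'_surjective H q
        have hpos : (0 : ℤ) < (n * l : ℕ) := by exact_mod_cast Nat.pos_of_ne_zero (mul_ne_zero hn hl)
        refine ⟨fun i => ⟨(c i % (n * l : ℕ)).toNat, by
          have h1 := Int.emod_nonneg (c i) hpos.ne'
          have h2 := Int.emod_lt_of_pos (c i) hpos
          omega⟩, ?_⟩
        refine QuotientAddGroup.eq_iff_sub_mem.2 ⟨∑ i, (-(c i / (n * l : ℕ))) • l • s i,
          sum_mem fun i _ => Λ.smul_mem _ (hls i), ?_⟩
        rw [he, Finset.smul_sum]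
        refine Finset.sum_congr rfl fun i _ => ?_
        rw [← natCast_zsmul, ← natCast_zsmul, ← mul_smul, ← mul_smul]
        congr 1
        have h1 := Int.emod_nonneg (c i) hpos.ne'
        have h2 := Int.emod_add_mul_ediv (c i) (n * l : ℕ)
        show _ = ((c i % (n * l : ℕ)).toNat : ℤ) - c i
        rw [Int.toNat_of_nonneg h1]
        push_cast at h2 ⊢
        linear_combination -h2
    exact Nat.card_pos.ne'
  obtain ⟨m, hm, hmN, c, ⟨y₀, hy₀, hyc⟩, hc0, hcle⟩ := exists_small_mem hN H hH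
  -- the vectors `M₀ M c s j`
  let T : Fin N → Fin N → ℤ := fun j t => (M : ℤ) * ∑ i, c i * γ (i, j) t
  have hT : ∀ j, e (T j) = (M₀ * M) • (e c * s j) := fun j => by
    have hT' : T j = (M : ℤ) • ∑ i, c i • γ (i, j) := funext fun t => by
      simp [T, Finset.sum_apply, Pi.smul_apply]
    rw [hT', map_smul, map_sum, he c, Finset.sum_mul, Finset.smul_sum, Finset.smul_sum]
    refine Finset.sum_congr rfl fun i _ => ?_
    rw [map_smul, hγ, smul_mul_assoc, mul_comm M₀ M, mul_smul, natCast_zsmul,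
      smul_comm M₀ (c i)]
  have hec : e c ≠ 0 := fun h => hc0 (heinj (h.trans (map_zero e).symm))
  have hTH : ∀ j, T j ∈ H := fun j => ⟨(M₀ * M) • (y₀ * s j), by
    rw [mul_smul]
    exact nsmul_mem (hst y₀ hy₀ (s j) (Submodule.subset_span ⟨j, rfl⟩)) _, by
    rw [hT, ← hyc, smul_mul_assoc, smul_comm]⟩
  have hli : LinearIndependent ℤ T := by
    refine LinearIndependent.of_comp e (Fintype.linearIndependent_iff.2 fun a ha => ?_)
    have h : (M₀ * M) • (e c * e a) = 0 := by
      rw [← ha, he a, Finset.mul_sum, Finset.smul_sum]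
      refine Finset.sum_congr rfl fun j _ => ?_
      rw [Function.comp_apply, hT, mul_smul_comm, smul_comm]
    have h2 := (smul_eq_zero.1 h).resolve_left (mul_ne_zero hM₀ hM)
    exact congrFun (heinj (((mul_eq_zero.1 h2).resolve_left hec).trans (map_zero e).symm))
  -- the index of their span
  set Y : Submodule ℤ (Fin N → ℤ) := Submodule.span ℤ (Set.range T)
  have hYH : Y.toAddSubgroup ≤ H := fun z hz => by
    obtain ⟨a, rfl⟩ := (Submodule.mem_span_range_iff_exists_fun ℤ).1 hz
    exact sum_mem fun j _ => zsmul_mem (hTH j) _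
  have hcard : Y.toAddSubgroup.index = (Matrix.det (Matrix.of T)).natAbs := by
    rw [AddSubgroup.index_eq_card,
      show Nat.card ((Fin N → ℤ) ⧸ Y.toAddSubgroup) = Nat.card ((Fin N → ℤ) ⧸ Y) from rfl,
      ← Submodule.natAbs_det_basis_change (Pi.basisFun ℤ (Fin N)) Y (Basis.span hli),
      Basis.det_apply]
    congr 1
    rw [← Matrix.det_transpose]
    congr 1
    ext i j
    simp only [Basis.toMatrix_apply, Matrix.transpose_apply, Matrix.of_apply, Function.comp_apply,
      Pi.basisFun_repr]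
    exact congrFun (Basis.coe_span_apply hli i) j
  have hdet : (Matrix.det (Matrix.of T)).natAbs ≠ 0 := by
    rw [Int.natAbs_ne_zero]
    intro h
    obtain ⟨a, ha, ha'⟩ := Matrix.exists_vecMul_eq_zero_iff.2 h
    refine ha (funext (Fintype.linearIndependent_iff.1 hli a ?_))
    rw [← ha']
    funext t
    simp [Matrix.vecMul, dotProduct]
  have hbound : (Matrix.det (Matrix.of T)).natAbs ≤ C * H.index := by
    have hent : ∀ j t, AbsoluteValue.abs (Matrix.of T j t) ≤ ((N * M * Γ + 1) * m : ℕ) := fun j t => by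
      show |(M : ℤ) * ∑ i, c i * γ (i, j) t| ≤ _
      rw [abs_mul, Nat.abs_cast]
      have h1 : |∑ i, c i * γ (i, j) t| ≤ (N : ℤ) * (m * Γ) := by
        refine (Finset.abs_sum_le_sum_abs _ _).trans
          ((Finset.sum_le_card_nsmul _ _ ((m : ℤ) * Γ) fun i _ => ?_).trans_eq (by simp))
        rw [abs_mul]
        refine mul_le_mul (hcle i) ?_ (abs_nonneg _) (Int.natCast_nonneg m)
        rw [Int.abs_eq_natAbs, Int.ofNat_le]
        exact (Finset.single_le_sum (f := fun t => (γ (i, j) t).natAbs) (fun _ _ => Nat.zero_le _)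
          (Finset.mem_univ t)).trans (Finset.single_le_sum
            (f := fun p : Fin N × Fin N => ∑ t, (γ p t).natAbs) (fun _ _ => Nat.zero_le _)
            (Finset.mem_univ (i, j)))
      push_cast
      nlinarith [Int.natCast_nonneg M, Int.natCast_nonneg m]
    have hd := Matrix.det_le hent
    rw [Fintype.card_fin, AbsoluteValue.abs_apply, nsmul_eq_mul, Int.abs_eq_natAbs] at hd
    calc (Matrix.det (Matrix.of T)).natAbs ≤ N.factorial * ((N * M * Γ + 1) * m) ^ N := by
          exact_mod_cast hd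
      _ = C * m ^ N := by rw [mul_pow, ← mul_assoc]
      _ ≤ C * H.index := Nat.mul_le_mul_left _ hmN
  have hrel := AddSubgroup.relIndex_mul_index hYH
  rw [hcard] at hrel
  set r := Y.toAddSubgroup.relIndex H
  have hr0 : r ≠ 0 := fun h => hdet (by rw [← hrel, h, zero_mul])
  have hrC : r ≤ C := Nat.le_of_mul_le_mul_right (hrel.le.trans hbound) (Nat.pos_of_ne_zero hH)
  -- conclude
  have hny : n • y₀ ≠ 0 := hyc ▸ hec
  have hy0 : y₀ ≠ 0 := fun h => hny (by rw [h, smul_zero])
  refine ⟨y₀⁻¹, inv_ne_zero hy0, fun y hy => ?_, fun b hb => ?_⟩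
  · obtain ⟨a, ha⟩ := (hB _).1 (hnB y hy)
    set F := Nat.factorial C
    have hmem : F • a ∈ Y := (AddSubgroup.nsmul_mem_of_relIndex_ne_zero_of_dvd hr0
      (show a ∈ H from ⟨y, hy, ha.symm⟩) fun l hl hlr => Nat.dvd_factorial hl (hlr.trans hrC)).1
    obtain ⟨q, hq⟩ := (Submodule.mem_span_range_iff_exists_fun ℤ).1 hmem
    have h1 : n • (F • y) = n • (y₀ * ((M₀ * M) • e q)) := by
      rw [smul_comm n F, ← ha, ← map_nsmul, ← hq, map_sum, ← smul_mul_assoc, hyc, mul_smul_comm,
        he q, Finset.mul_sum, Finset.smul_sum]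
      exact Finset.sum_congr rfl fun j _ => by rw [map_smul, hT, mul_smul_comm, smul_comm]
    have h2 : F • (y₀⁻¹ * y) = (M₀ * M) • e q := by
      rw [← mul_smul_comm, nsmul_right_injective hn h1, inv_mul_cancel_left₀ hy0]
    rw [mul_comm F, mul_smul, h2]
    exact nsmul_mem (nsmul_mem ((hB _).2 ⟨q, rfl⟩) _) _
  · rw [inv_inv, mul_smul, mul_smul]
    exact nsmul_mem (nsmul_mem (hst y₀ hy₀ b hb) _) _

end FA.JordanZassenhaus

end
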