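import Fermat.Agent.JordanZassenhaus.Simple

/-!
# The theorem of Jordan and Zassenhaus

The classes of lattices stable under an order in a module over a semisimple algebra are bounded, by
induction on the dimension: an extension of lattices is near a split one after a shear.
-/

set_option autoImplicit false
set_option linter.style.haveILetI false

noncomputable section

open Module

namespace FA.JordanZassenhaus

universe v

section Types

variable {A : Type*} [Ring A] [IsSemisimpleRing A]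

/-- A product of submodules as a product of modules. -/
def prodSubmoduleEquiv {B : Type*} [Ring B] {M N : Type*} [AddCommGroup M] [Module B M]
    [AddCommGroup N] [Module B N] (P : Submodule B M) (Q : Submodule B N) :
    P.prod Q ≃ₗ[B] P × Q where
  toFun x := (⟨x.1.1, x.2.1⟩, ⟨x.1.2, x.2.2⟩)
  invFun x := ⟨(x.1, x.2), x.1.2, x.2.2⟩
  map_add' _ _ := rfl
  map_smul' _ _ := rfl

/-- A simple module is isomorphic to one inside the algebra. -/
theorem exists_submodule_of_isSimpleModule :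
    ∃ T : Finset (Submodule A A), ∀ (S : Type v) [AddCommGroup S] [Module A S]
      [IsSimpleModule A S], ∃ P ∈ T, Nonempty (S ≃ₗ[A] P) := by
  classical
  haveI : Module.Finite A A := inferInstance
  obtain ⟨s, hs, htop, hsimple⟩ :=
    IsSemisimpleModule.exists_sSupIndep_sSup_simples_eq_top A A
  have hfin : s.Finite := WellFoundedGT.finite_of_sSupIndep hs
  refine ⟨hfin.toFinset, fun S _ _ _ => ?_⟩
  haveI : Nontrivial S := IsSimpleModule.nontrivial A S
  obtain ⟨x, hx⟩ := exists_ne (0 : S)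
  let f : A →ₗ[A] S := LinearMap.toSpanSingleton A S x
  obtain ⟨P, hP, hne⟩ : ∃ P ∈ s, f ∘ₗ P.subtype ≠ 0 := by
    by_contra! h
    refine hx ?_
    have hle : sSup s ≤ LinearMap.ker f := sSup_le fun P hP y hy =>
      LinearMap.congr_fun (h P hP) ⟨y, hy⟩
    rw [htop] at hle
    simpa [f] using hle (Submodule.mem_top : (1 : A) ∈ ⊤)
  haveI := hsimple P hP
  exact ⟨P, hfin.mem_toFinset.2 hP,
    ⟨(LinearEquiv.ofBijective _ (LinearMap.bijective_of_ne_zero hne)).symm⟩⟩

/-- **Finitely many modules of bounded dimension.** -/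
theorem exists_submodule_list {k : Type*} [Field k] [Algebra k A] [FiniteDimensional k A]
    (m : ℕ) :
    ∃ F : Finset (Submodule A (Fin m → A)), ∀ (V : Type v) [AddCommGroup V] [Module A V]
      [Module k V] [IsScalarTower k A V] [FiniteDimensional k V], finrank k V ≤ m →
      ∃ S ∈ F, Nonempty (V ≃ₗ[A] S) := by
  classical
  obtain ⟨T, hT⟩ := exists_submodule_of_isSimpleModule.{v} (A := A)
  induction m with
  | zero =>
    refine ⟨{⊥}, fun V _ _ _ _ _ hd => ⟨⊥, Finset.mem_singleton_self _, ?_⟩⟩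
    haveI : Subsingleton V := Module.finrank_zero_iff.1 (Nat.le_zero.1 hd)
    exact ⟨LinearEquiv.ofSubsingleton _ _⟩
  | succ m ih =>
    obtain ⟨F, hF⟩ := ih
    let e : (A × (Fin m → A)) ≃ₗ[A] (Fin (m + 1) → A) := Fin.consLinearEquiv A fun _ => A
    refine ⟨insert ⊥ ((T ×ˢ F).image fun PS => (PS.1.prod PS.2).map e.toLinearMap),
      fun V _ _ _ _ _ hd => ?_⟩
    rcases subsingleton_or_nontrivial V with hs | hnt
    · exact ⟨⊥, Finset.mem_insert_self _ _, ⟨LinearEquiv.ofSubsingleton _ _⟩⟩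
    obtain ⟨W, hW⟩ := IsSemisimpleModule.exists_simple_submodule A V
    obtain ⟨W', hW'⟩ := exists_isCompl W
    haveI : FiniteDimensional k W :=
      FiniteDimensional.of_injective (W.subtype.restrictScalars k) Subtype.val_injective
    haveI : FiniteDimensional k W' :=
      FiniteDimensional.of_injective (W'.subtype.restrictScalars k) Subtype.val_injective
    have hlt : finrank k W' ≤ m := by
      have h := ((Submodule.prodEquivOfIsCompl W W' hW').restrictScalars k).finrank_eq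
      rw [Module.finrank_prod] at h
      haveI : Nontrivial W := IsSimpleModule.nontrivial A W
      have : 0 < finrank k W := Module.finrank_pos
      omega
    obtain ⟨P, hP, ⟨eP⟩⟩ := hT W
    obtain ⟨S, hS, ⟨eS⟩⟩ := hF W' hlt
    refine ⟨_, Finset.mem_insert_of_mem (Finset.mem_image_of_mem _
      (Finset.mem_product.2 ⟨hP, hS⟩ : (P, S) ∈ T ×ˢ F)), ⟨?_⟩⟩
    exact ((Submodule.prodEquivOfIsCompl W W' hW').symm.trans (eP.prodCongr eS)).trans
      ((prodSubmoduleEquiv P S).symm.trans (e.submoduleMap _))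

end Types

variable {A : Type*} [Ring A] [Algebra ℚ A] [IsSemisimpleRing A] {R : Submodule ℤ A}

/-- **An extension of lattices is near a split one.** -/
theorem hasBoundedClasses_prod {W W' : Type v} [AddCommGroup W] [Module A W] [Module ℚ W]
    [IsScalarTower ℚ A W] [AddCommGroup W'] [Module A W'] [Module ℚ W'] [IsScalarTower ℚ A W']
    [FiniteDimensional ℚ W'] (hR : IsFull R) (h : HasBoundedClasses R W)
    (h' : HasBoundedClasses R W') : HasBoundedClasses R (W × W') := by
  classical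
  obtain ⟨B₁, hB₁, k₁, hk₁, h₁⟩ := h
  obtain ⟨B₂, hB₂, k₂, hk₂, h₂⟩ := h'
  set k := k₁ * k₂ with hkdef
  have hk : k ≠ 0 := mul_ne_zero hk₁ hk₂
  haveI : Module.Finite A W' := Module.Finite.of_restrictScalars_finite ℚ A W'
  obtain ⟨t, π, hπ⟩ := Module.Finite.exists_fin' A W'
  obtain ⟨P, hP⟩ := exists_isCompl (LinearMap.ker π)
  obtain ⟨ι, hι⟩ : ∃ ι : W' →ₗ[A] (Fin t → A), ∀ y, π (ι y) = y := by
    let q : P ≃ₗ[A] W' :=
      ((Submodule.quotientEquivOfIsCompl _ P hP).symm.trans (π.quotKerEquivOfSurjective hπ))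
    refine ⟨P.subtype ∘ₗ q.symm.toLinearMap, fun y => ?_⟩
    conv_rhs => rw [← q.apply_symm_apply y]
    rfl
  let p : Fin t → W' := fun j => π (Pi.single j 1)
  obtain ⟨N, hN, hNp⟩ := hB₂.exists_nsmul_mem p
  obtain ⟨r, b, hb⟩ := Submodule.fg_iff_exists_fin_generating_family.1 hB₂.1
  obtain ⟨M, hM, hMb⟩ := hR.exists_nsmul_mem fun ij : Fin r × Fin t => ι (b ij.1) ij.2
  have hMR : ∀ y ∈ B₂, ∀ j, M • ι y j ∈ R := fun y hy j => by
    rw [← hb] at hy
    induction hy using Submodule.span_induction with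
    | mem x hx => obtain ⟨i, rfl⟩ := hx; exact hMb (i, j)
    | zero => simp
    | add x z _ _ hx hz => rw [map_add, Pi.add_apply, smul_add]; exact add_mem hx hz
    | smul c x _ hx => rw [map_zsmul, Pi.smul_apply, smul_comm]; exact R.smul_mem c hx
  refine ⟨B₁.prod B₂, ⟨hB₁.1.prod hB₂.1, fun v => ?_⟩, k * (k * N * (M * k)),
    mul_ne_zero hk (mul_ne_zero (mul_ne_zero hk hN) (mul_ne_zero hM hk)), fun L hL hst => ?_⟩
  · obtain ⟨n, hn, h⟩ := hB₁.2 v.1
    obtain ⟨n', hn', h'⟩ := hB₂.2 v.2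
    refine ⟨n' * n, mul_ne_zero hn' hn, ?_, ?_⟩
    · show (n' * n) • v.1 ∈ B₁
      rw [mul_smul]; exact nsmul_mem h _
    · show (n' * n) • v.2 ∈ B₂
      rw [mul_comm, mul_smul]; exact nsmul_mem h' _
  set K := k * N * (M * k) with hK
  obtain ⟨φ₁, ha₁, hc₁⟩ := h₁ (L.comap ((LinearMap.inl A W W').toAddMonoidHom.toIntLinearMap))
    (hL.comap _ LinearMap.inl_injective) fun r hr x hx => by
      show LinearMap.inl A W W' (r • x) ∈ L
      rw [map_smul]
      exact hst r hr _ hx
  obtain ⟨φ₂, ha₂, hc₂⟩ := h₂ (L.map ((LinearMap.snd A W W').toAddMonoidHom.toIntLinearMap))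
    (hL.map _ LinearMap.snd_surjective) (hst.map _)
  let L' := L.map (φ₁.prodCongr φ₂).toLinearMap.toAddMonoidHom.toIntLinearMap
  have hst' : IsStable R L' := hst.map _
  have hA₁ : ∀ x, (x, 0) ∈ L' → k • x ∈ B₁ := fun x hx => by
    obtain ⟨⟨u, u'⟩, hu, he⟩ := hx
    obtain ⟨he1, he2⟩ := Prod.ext_iff.1 he
    have hu' : u' = 0 := φ₂.map_eq_zero_iff.1 he2
    subst hu'
    rw [hkdef, mul_comm, mul_smul, ← show φ₁ u = x from he1]
    exact nsmul_mem (ha₁ u hu) _
  have hC₁ : ∀ x ∈ B₁, (k • x, 0) ∈ L' := fun x hx =>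
    ⟨(k • φ₁.symm x, 0), by
      have := nsmul_mem (hc₁ x hx) k₂
      rw [← mul_smul, mul_comm k₂, ← hkdef] at this
      exact this, Prod.ext (by show φ₁ _ = _; rw [map_nsmul, φ₁.apply_symm_apply])
        (map_zero φ₂)⟩
  have hA₂ : ∀ x y, (x, y) ∈ L' → k • y ∈ B₂ := fun x y hxy => by
    obtain ⟨⟨u, u'⟩, hu, he⟩ := hxy
    rw [hkdef, mul_smul, ← show φ₂ u' = y from (Prod.ext_iff.1 he).2]
    exact nsmul_mem (ha₂ u' ⟨(u, u'), hu, rfl⟩) _
  have hC₂ : ∀ y ∈ B₂, ∃ x, (x, k • y) ∈ L' := fun y hy => by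
    obtain ⟨⟨u, u'⟩, hu, he⟩ := hc₂ y hy
    refine ⟨k₁ • φ₁ u, (k₁ • u, k₁ • u'), nsmul_mem hu k₁, Prod.ext (map_nsmul φ₁ _ _) ?_⟩
    show φ₂ (k₁ • u') = _
    rw [show u' = k₂ • φ₂.symm y from he, map_nsmul, map_nsmul, φ₂.apply_symm_apply, hkdef,
      mul_smul]
  choose w hw using fun j => hC₂ _ (hNp j)
  -- the shear
  let g : W' →ₗ[A] W :=
    (Fintype.linearCombination A fun j => ((k * N : ℕ) : ℚ)⁻¹ • w j) ∘ₗ ι
  have hg : ∀ y, g y = ∑ j, ι y j • ((k * N : ℕ) : ℚ)⁻¹ • w j := fun y => rfl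
  have hkey : ∀ x y, (x, y) ∈ L' → (K • (g y - x), 0) ∈ L' := fun x y hxy => by
    have hky := hA₂ x y hxy
    have h : ∑ j, (M • ι (k • y) j) • (w j, k • (N • p j)) ∈ L' :=
      sum_mem fun j _ => hst' _ (hMR _ hky j) _ (hw j)
    have hp : ∑ j, ι y j • p j = y := by
      conv_rhs => rw [← hι y, pi_eq_sum_univ' (ι y), map_sum]
      exact Finset.sum_congr rfl fun j _ => by rw [map_smul]
    have e : ∑ j, (M • ι (k • y) j) • (w j, k • (N • p j)) = (K • g y, K • y) := by
      rw [map_nsmul]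
      ext
      · rw [Prod.fst_sum, hg, Finset.smul_sum]
        refine Finset.sum_congr rfl fun j _ => ?_
        show (M • (k • ι y j)) • w j = _
        rw [smul_comm (ι y j) (((k * N : ℕ) : ℚ)⁻¹), ← mul_smul M k, smul_assoc, hK,
          ← Nat.cast_smul_eq_nsmul ℚ (k * N * (M * k)), ← mul_smul, Nat.cast_mul (k * N),
          mul_comm ((k * N : ℕ) : ℚ), mul_assoc,
          mul_inv_cancel₀ (Nat.cast_ne_zero.2 (mul_ne_zero hk hN)), mul_one, Nat.cast_smul_eq_nsmul]
      · rw [Prod.snd_sum]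
        show ∑ j, (M • (k • ι y j)) • (k • N • p j) = K • y
        conv_rhs => rw [← hp, Finset.smul_sum]
        refine Finset.sum_congr rfl fun j _ => ?_
        rw [← mul_smul k N, smul_comm _ (k * N), ← mul_smul M k, smul_assoc, ← mul_smul, hK]
    have := sub_mem h (nsmul_mem hxy K)
    rw [e] at this
    rw [show (K • (g y - x), (0 : W')) = (K • g y, K • y) - K • (x, y) by simp [smul_sub]]
    exact this
  let τ : (W × W') ≃ₗ[A] (W × W') := LinearEquiv.ofLinearMap
    (f := (LinearMap.fst A W W' - g ∘ₗ LinearMap.snd A W W').prod (LinearMap.snd A W W'))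
    (g := (LinearMap.fst A W W' + g ∘ₗ LinearMap.snd A W W').prod (LinearMap.snd A W W'))
    (LinearMap.ext fun v => by simp) (LinearMap.ext fun v => by simp)
  have hτ : ∀ v : W × W', τ v = (v.1 - g v.2, v.2) := fun v => rfl
  have hτ' : ∀ v : W × W', τ.symm v = (v.1 + g v.2, v.2) := fun v => rfl
  refine ⟨(φ₁.prodCongr φ₂).trans τ, fun v hv => ?_, fun v hv => ?_⟩
  · have hv' : (φ₁ v.1, φ₂ v.2) ∈ L' := ⟨v, hv, rfl⟩
    show (k * K) • τ (φ₁ v.1, φ₂ v.2) ∈ B₁.prod B₂
    rw [hτ]
    refine ⟨?_, ?_⟩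
    · show (k * K) • (φ₁ v.1 - g (φ₂ v.2)) ∈ B₁
      rw [mul_smul, ← neg_sub, smul_neg, smul_neg]
      exact neg_mem (hA₁ _ (hkey _ _ hv'))
    · show (k * K) • φ₂ v.2 ∈ B₂
      rw [mul_comm, mul_smul]
      exact nsmul_mem (hA₂ _ _ hv') _
  · obtain ⟨hv1, hv2⟩ : v.1 ∈ B₁ ∧ v.2 ∈ B₂ := hv
    have hmem : (k * K) • τ.symm v ∈ L' := by
      obtain ⟨x, hx⟩ := hC₂ _ hv2
      have h1 := nsmul_mem (hC₁ _ hv1) K
      have h2 := add_mem (nsmul_mem hx K) (hkey _ _ hx)
      have h3 := add_mem h1 h2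
      convert h3 using 1
      rw [hτ', map_nsmul]
      ext
      · simp only [Prod.smul_fst, Prod.fst_add, smul_sub, smul_add]
        rw [← mul_smul K k, ← mul_smul K k, mul_comm K k]
        abel
      · simp only [Prod.smul_snd, Prod.snd_add]
        rw [smul_zero, zero_add, add_zero, ← mul_smul, mul_comm K k]
    obtain ⟨u, hu, he⟩ := hmem
    show (k * K) • (φ₁.prodCongr φ₂).symm (τ.symm v) ∈ L
    rw [← map_nsmul, ← show (φ₁.prodCongr φ₂) u = _ from he, LinearEquiv.symm_apply_apply]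
    exact hu

/-- **The theorem of Jordan and Zassenhaus.** -/
theorem hasBoundedClasses (hR : IsFull R) (V : Type v) [AddCommGroup V] [Module A V] [Module ℚ V]
    [IsScalarTower ℚ A V] [FiniteDimensional ℚ V] : HasBoundedClasses R V := by
  suffices H : ∀ d : ℕ, ∀ (V : Type v) [AddCommGroup V] [Module A V] [Module ℚ V]
      [IsScalarTower ℚ A V] [FiniteDimensional ℚ V], finrank ℚ V = d → HasBoundedClasses R V from
    H _ V rfl
  intro d
  induction d using Nat.strong_induction_on with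
  | _ d ih =>
    intro V _ _ _ _ _ hd
    rcases subsingleton_or_nontrivial V with hs | hnt
    · exact ⟨⊥, ⟨Submodule.fg_bot, fun v => ⟨1, one_ne_zero, by simp [Subsingleton.elim v 0]⟩⟩, 1,
        one_ne_zero, fun L _ _ => ⟨LinearEquiv.refl A V, fun x _ => by simp [Subsingleton.elim x 0],
          fun x _ => by simp [Subsingleton.elim x 0]⟩⟩
    obtain ⟨W, hW⟩ := IsSemisimpleModule.exists_simple_submodule A V
    obtain ⟨W', hW'⟩ := exists_isCompl W
    haveI : FiniteDimensional ℚ W :=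
      FiniteDimensional.of_injective (W.subtype.restrictScalars ℚ) Subtype.val_injective
    haveI : FiniteDimensional ℚ W' :=
      FiniteDimensional.of_injective (W'.subtype.restrictScalars ℚ) Subtype.val_injective
    have hlt : finrank ℚ W' < d := by
      have h := ((Submodule.prodEquivOfIsCompl W W' hW').restrictScalars ℚ).finrank_eq
      rw [Module.finrank_prod, hd] at h
      haveI : Nontrivial W := IsSimpleModule.nontrivial A W
      have : 0 < finrank ℚ W := Module.finrank_pos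
      omega
    exact (hasBoundedClasses_prod hR (hasBoundedClasses_of_isSimpleModule hR)
      (ih _ hlt W' rfl)).congr (Submodule.prodEquivOfIsCompl W W' hW')

/-- **Jordan–Zassenhaus by rank**: finitely many lattices up to isomorphism. -/
theorem exists_finite_lattices [FiniteDimensional ℚ A] (hR : IsFull R) (m : ℕ) :
    ∃ F : Set (Σ S : Submodule A (Fin m → A), Submodule ℤ S), F.Finite ∧
      ∀ (V : Type v) [AddCommGroup V] [Module A V] [Module ℚ V] [IsScalarTower ℚ A V]
        [FiniteDimensional ℚ V], finrank ℚ V ≤ m → ∀ L : Submodule ℤ V, IsFull L → IsStable R L →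
        ∃ SL ∈ F, ∃ f : V ≃ₗ[A] SL.1,
          L.map f.toAddEquiv.toIntLinearEquiv.toLinearMap = SL.2 := by
  classical
  obtain ⟨T, hT⟩ := exists_submodule_list.{v} (A := A) (k := ℚ) m
  have hfin : ∀ S : Submodule A (Fin m → A), ∃ F : Finset (Submodule ℤ S),
      ∀ L : Submodule ℤ S, IsFull L → IsStable R L →
        ∃ φ : S ≃ₗ[A] S, L.map φ.toAddEquiv.toIntLinearEquiv.toLinearMap ∈ F := fun S => by
    haveI : FiniteDimensional ℚ S :=
      FiniteDimensional.of_injective (S.subtype.restrictScalars ℚ) Subtype.val_injective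
    haveI : IsAddTorsionFree S := IsAddTorsionFree.of_module_rat _
    exact (hasBoundedClasses hR S).exists_finite
  choose F hF using hfin
  refine ⟨⋃ S ∈ T, Sigma.mk S '' (F S : Set (Submodule ℤ S)),
    T.finite_toSet.biUnion fun S _ => (F S).finite_toSet.image _,
    fun V _ _ _ _ _ hd L hL hst => ?_⟩
  obtain ⟨S, hS, ⟨f⟩⟩ := hT V hd
  obtain ⟨φ, hφ⟩ := hF S (L.map f.toAddEquiv.toIntLinearEquiv.toLinearMap)
    (hL.map _ f.surjective) (hst.map f.toLinearMap)
  refine ⟨⟨S, _⟩, Set.mem_biUnion hS ⟨_, hφ, rfl⟩, f.trans φ, ?_⟩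
  rw [← Submodule.map_comp]
  rfl

end FA.JordanZassenhaus

end
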