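import Fermat.Agent.JordanZassenhaus.Main
import Fermat.Agent.LinearGroups.Selberg
import Mathlib.RepresentationTheory.Maschke

/-!
# Jordan's finiteness theorem

A finite group has finitely many integral representations of each degree up to conjugation, so
`GL n ℤ` has finitely many conjugacy classes of finite subgroups.
-/

set_option autoImplicit false
set_option linter.style.haveILetI false

noncomputable section

open Module Matrix

namespace FA.JordanZassenhaus

variable (G : Type*) [Group G] (n : ℕ)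

/-- The rational representation of an integral one. -/
def ratRep (ρ : G →* GL (Fin n) ℤ) : Representation ℚ G (Fin n → ℚ) :=
  (Matrix.toLinAlgEquiv'.toAlgHom.toMonoidHom).comp
    ((Units.coeHom _).comp ((Matrix.GeneralLinearGroup.map (Int.castRingHom ℚ)).comp ρ))

/-- The integral vectors in the module of a representation. -/
def intVec (ρ : G →* GL (Fin n) ℤ) : (Fin n → ℤ) →ₗ[ℤ] (ratRep G n ρ).asModule :=
  (((ratRep G n ρ).asModuleEquiv.symm.toLinearMap).restrictScalars ℤ) ∘ₗ
    ((Int.castAddHom ℚ).compLeft (Fin n)).toIntLinearMap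

theorem intVec_apply (ρ : G →* GL (Fin n) ℤ) (c : Fin n → ℤ) :
    intVec G n ρ c = (ratRep G n ρ).asModuleEquiv.symm (fun i => (c i : ℚ)) := rfl

theorem intVec_injective (ρ : G →* GL (Fin n) ℤ) : Function.Injective (intVec G n ρ) :=
  fun a b h => funext fun i => Int.cast_injective
    (congrFun ((ratRep G n ρ).asModuleEquiv.symm.injective h) i : (a i : ℚ) = b i)

theorem smul_intVec (ρ : G →* GL (Fin n) ℤ) (g : G) (c : Fin n → ℤ) :
    MonoidAlgebra.of ℚ G g • intVec G n ρ c =
      intVec G n ρ ((ρ g : Matrix (Fin n) (Fin n) ℤ) *ᵥ c) := by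
  rw [intVec_apply, intVec_apply, ← Representation.asModuleEquiv_symm_map_rho]
  congr 1
  funext i
  show (((ρ g : Matrix (Fin n) (Fin n) ℤ).map (Int.castRingHom ℚ)) *ᵥ fun j => (c j : ℚ)) i = _
  exact (RingHom.map_mulVec (Int.castRingHom ℚ) (ρ g : Matrix (Fin n) (Fin n) ℤ) c i).symm

/-- **A finite group has finitely many integral representations of each degree.** -/
theorem finite_integral_representations [Finite G] :
    ∃ F : Finset (G →* GL (Fin n) ℤ), ∀ ρ : G →* GL (Fin n) ℤ,
      ∃ σ ∈ F, ∃ P : GL (Fin n) ℤ, ∀ g, σ g = P * ρ g * P⁻¹ := by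
  classical
  haveI := Fintype.ofFinite G
  let A := MonoidAlgebra ℚ G
  set R : Submodule ℤ A := Submodule.span ℤ (Set.range (MonoidAlgebra.of ℚ G)) with hRdef
  have hR : IsFull R := by
    refine ⟨Submodule.fg_span (Set.finite_range _), fun v => ?_⟩
    induction v using MonoidAlgebra.induction_on with
    | of g => exact ⟨1, one_ne_zero, by rw [one_smul]; exact Submodule.subset_span ⟨g, rfl⟩⟩
    | add x y hx hy =>
      obtain ⟨a, ha, hx⟩ := hx
      obtain ⟨b, hb, hy⟩ := hy
      refine ⟨a * b, mul_ne_zero ha hb, ?_⟩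
      rw [smul_add]
      refine add_mem ?_ ?_
      · rw [mul_comm, mul_smul]; exact nsmul_mem hx b
      · rw [mul_smul]; exact nsmul_mem hy a
    | smul q x hx =>
      obtain ⟨a, ha, hx⟩ := hx
      refine ⟨q.den * a, mul_ne_zero q.den_nz ha, ?_⟩
      rw [mul_smul, smul_comm a q, ← Nat.cast_smul_eq_nsmul ℚ q.den, ← mul_smul, mul_comm,
        Rat.mul_den_eq_num, Int.cast_smul_eq_zsmul]
      exact R.smul_mem _ hx
  haveI : FiniteDimensional ℚ A := inferInstance
  obtain ⟨F, hFfin, hF⟩ := exists_finite_lattices.{0} hR n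
  have hkey : ∀ ρ : G →* GL (Fin n) ℤ, ∃ SL ∈ F, ∃ f : (ratRep G n ρ).asModule ≃ₗ[A] SL.1,
      (LinearMap.range (intVec G n ρ)).map f.toAddEquiv.toIntLinearEquiv.toLinearMap = SL.2 := by
    intro ρ
    haveI : FiniteDimensional ℚ (ratRep G n ρ).asModule :=
      Module.Finite.equiv (ratRep G n ρ).asModuleEquiv.symm
    refine hF _ ?_ _ ⟨(LinearMap.range_eq_map (intVec G n ρ)) ▸ Module.Finite.fg_top.map _,
      fun v => ?_⟩ fun r hr x hx => ?_
    · rw [(ratRep G n ρ).asModuleEquiv.finrank_eq, Module.finrank_fin_fun]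
    · set u := (ratRep G n ρ).asModuleEquiv v
      refine ⟨∏ i, (u i).den, Finset.prod_ne_zero_iff.2 fun i _ => (u i).den_nz,
        fun i => (∏ j ∈ Finset.univ.erase i, (u j).den : ℕ) * (u i).num, ?_⟩
      rw [intVec_apply, ← (ratRep G n ρ).asModuleEquiv.symm_apply_apply v, ← map_nsmul]
      congr 1
      funext i
      rw [Pi.smul_apply, nsmul_eq_mul, ← Finset.mul_prod_erase _ _ (Finset.mem_univ i)]
      push_cast
      linear_combination -(∏ j ∈ Finset.univ.erase i, ((u j).den : ℚ)) * Rat.mul_den_eq_num (u i)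
    · obtain ⟨c, rfl⟩ := hx
      rw [hRdef] at hr
      induction hr using Submodule.span_induction with
      | mem y hy =>
        obtain ⟨g, rfl⟩ := hy
        exact ⟨_, (smul_intVec G n ρ g c).symm⟩
      | zero => simp
      | add y z _ _ hy hz => rw [add_smul]; exact add_mem hy hz
      | smul a y _ hy => rw [smul_assoc]; exact Submodule.smul_mem _ a hy
  choose SL hSL f hf using hkey
  have hfin : (Set.range SL).Finite := hFfin.subset (Set.range_subset_iff.2 hSL)
  choose rep hrep using fun y : Set.range SL => y.2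
  haveI := hfin.fintype
  refine ⟨Finset.univ.image rep, fun ρ => ?_⟩
  set σ := rep ⟨SL ρ, ρ, rfl⟩
  have hσ : SL σ = SL ρ := hrep ⟨SL ρ, ρ, rfl⟩
  refine ⟨σ, Finset.mem_image_of_mem _ (Finset.mem_univ _), ?_⟩
  have hiso : ∀ a b : G →* GL (Fin n) ℤ, SL a = SL b →
      ∃ h : (ratRep G n a).asModule ≃ₗ[A] (ratRep G n b).asModule,
        (∀ c, ∃ c', h (intVec G n a c) = intVec G n b c') ∧
          ∀ c, ∃ c', h.symm (intVec G n b c) = intVec G n a c' := by
    intro a b hab
    have hfa := hf a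
    have hfb := hf b
    revert hfa hfb
    generalize f a = fa
    generalize f b = fb
    revert fa fb
    rw [hab]
    intro fa fb hfa hfb
    refine ⟨fa.trans fb.symm, fun c => ?_, fun c => ?_⟩
    · have hmem : fa (intVec G n a c) ∈ (SL b).2 := hfa ▸ ⟨_, ⟨c, rfl⟩, rfl⟩
      rw [← hfb] at hmem
      obtain ⟨_, ⟨c', rfl⟩, hc'⟩ := hmem
      exact ⟨c', fb.symm_apply_eq.2 hc'.symm⟩
    · have hmem : fb (intVec G n b c) ∈ (SL b).2 := hfb ▸ ⟨_, ⟨c, rfl⟩, rfl⟩
      rw [← hfa] at hmem
      obtain ⟨_, ⟨c', rfl⟩, hc'⟩ := hmem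
      exact ⟨c', fa.symm_apply_eq.2 hc'.symm⟩
  obtain ⟨h, hh, hh'⟩ := hiso ρ σ hσ.symm
  -- the matrices of the isomorphism
  have hmat : ∀ (a b : G →* GL (Fin n) ℤ)
      (h : (ratRep G n a).asModule →ₗ[A] (ratRep G n b).asModule),
      (∀ c, ∃ c', h (intVec G n a c) = intVec G n b c') →
      ∃ P : Matrix (Fin n) (Fin n) ℤ, ∀ c, h (intVec G n a c) = intVec G n b (P *ᵥ c) := by
    intro a b h hh
    choose t ht using hh
    let T : (Fin n → ℤ) →ₗ[ℤ] (Fin n → ℤ) :=
      { toFun := t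
        map_add' := fun c d => intVec_injective G n b (by
          rw [← ht, map_add, map_add, map_add, ht, ht])
        map_smul' := fun r c => intVec_injective G n b (by
          rw [← ht, map_smul, map_zsmul, RingHom.id_apply, map_smul, ht]) }
    exact ⟨LinearMap.toMatrix' T, fun c => by rw [LinearMap.toMatrix'_mulVec]; exact ht c⟩
  obtain ⟨P, hP⟩ := hmat ρ σ h.toLinearMap hh
  obtain ⟨Q, hQ⟩ := hmat σ ρ h.symm.toLinearMap hh'
  have hP' : ∀ c, h (intVec G n ρ c) = intVec G n σ (P *ᵥ c) := hP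
  have hQ' : ∀ c, h.symm (intVec G n σ c) = intVec G n ρ (Q *ᵥ c) := hQ
  have hQP : Q * P = 1 := Matrix.ext_of_mulVec_single fun j => intVec_injective G n ρ (by
    rw [← Matrix.mulVec_mulVec, ← hQ', ← hP', h.symm_apply_apply, Matrix.one_mulVec])
  have hPQ : P * Q = 1 := mul_eq_one_comm.1 hQP
  refine ⟨⟨P, Q, hPQ, hQP⟩, fun g => ?_⟩
  rw [eq_mul_inv_iff_mul_eq]
  refine Units.ext (Matrix.ext_of_mulVec_single fun j => intVec_injective G n σ ?_)
  show intVec G n σ (((σ g : Matrix (Fin n) (Fin n) ℤ) * P) *ᵥ _) =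
    intVec G n σ ((P * (ρ g : Matrix (Fin n) (Fin n) ℤ)) *ᵥ _)
  rw [← Matrix.mulVec_mulVec, ← Matrix.mulVec_mulVec, ← smul_intVec, ← hP', ← hP', ← smul_intVec,
    h.map_smul]

/-- **Jordan's finiteness theorem.** -/
theorem finite_subgroup_classes :
    ∃ F : Finset (Subgroup (GL (Fin n) ℤ)), ∀ H : Subgroup (GL (Fin n) ℤ), Finite H →
      ∃ H' ∈ F, ∃ P : GL (Fin n) ℤ, H' = H.map (MulAut.conj P).toMonoidHom := by
  classical
  haveI : Fact (Nat.Prime 3) := ⟨Nat.prime_three⟩
  haveI : NeZero (3 ^ 1) := ⟨by norm_num⟩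
  let toPadic : GL (Fin n) ℤ →* GL (Fin n) ℤ_[3] :=
    Matrix.GeneralLinearGroup.map (Int.castRingHom ℤ_[3])
  have htoPadic : Function.Injective toPadic := fun a b h => Units.ext (Matrix.ext fun i j => by
    have h' : ((a.1 i j : ℤ) : ℤ_[3]) = (b.1 i j : ℤ) :=
      congrArg (fun u : GL (Fin n) ℤ_[3] => (u : Matrix (Fin n) (Fin n) ℤ_[3]) i j) h
    exact Int.cast_injective h')
  let red : GL (Fin n) ℤ →* GL (Fin n) (ZMod (3 ^ 1)) :=
    (FA.LinearGroups.reduction (Fin n) 3 1).comp toPadic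
  choose F hF using fun H : Subgroup (GL (Fin n) (ZMod (3 ^ 1))) =>
    finite_integral_representations H n
  refine ⟨Finset.univ.biUnion fun H => (F H).image MonoidHom.range, fun H hH => ?_⟩
  have hinj : Function.Injective (red.comp H.subtype) :=
    (injective_iff_map_eq_one _).2 fun x hx => Subtype.ext (htoPadic
      ((FA.LinearGroups.eq_one_of_torsion (by norm_num) hx
        (toPadic.isOfFinOrder ((H.subtype).isOfFinOrder (isOfFinOrder_of_finite x)))).trans
          (map_one toPadic).symm))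
  let e : H ≃* (red.comp H.subtype).range := MonoidHom.ofInjective hinj
  obtain ⟨σ, hσ, P, hP⟩ := hF _ (H.subtype.comp e.symm.toMonoidHom)
  refine ⟨σ.range, Finset.mem_biUnion.2 ⟨_, Finset.mem_univ _, Finset.mem_image_of_mem _ hσ⟩, P, ?_⟩
  ext x
  simp only [MonoidHom.mem_range, Subgroup.mem_map, MulEquiv.coe_toMonoidHom, MulAut.conj_apply]
  constructor
  · rintro ⟨y, rfl⟩
    exact ⟨_, (e.symm y).2, (hP y).symm⟩
  · rintro ⟨y, hy, rfl⟩
    refine ⟨e ⟨y, hy⟩, ?_⟩
    rw [hP]
    simp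

end FA.JordanZassenhaus

end
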