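import Fermat.Agent.JordanZassenhaus.Division
import Mathlib.RingTheory.SimpleModule.Basic
import Mathlib.LinearAlgebra.Basis.VectorSpace

/-!
# Lattices in a simple module

By the density theorem the coordinates over the endomorphism division algebra reduce the classes of
lattices in a simple module to the classes of lattices in the division algebra.
-/

set_option autoImplicit false
set_option linter.style.haveILetI false

noncomputable section

open Module

namespace FA.JordanZassenhaus

variable {A : Type*} [Ring A] [Algebra ℚ A] {V : Type*} [AddCommGroup V] [Module A V] [Module ℚ V]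
  [IsScalarTower ℚ A V] [FiniteDimensional ℚ V]

/-- **A simple module has boundedly many classes of stable lattices.** -/
theorem hasBoundedClasses_of_isSimpleModule [IsSimpleModule A V] {R : Submodule ℤ A}
    (hR : IsFull R) : HasBoundedClasses R V := by
  classical
  let D := Module.End A V
  haveI : FiniteDimensional ℚ D :=
    FiniteDimensional.of_injective (LinearMap.restrictScalarsₗ ℚ A V V ℚ)
      fun f g h => LinearMap.restrictScalars_injective ℚ h
  haveI : IsScalarTower ℚ D V := ⟨fun c f v => rfl⟩
  haveI : Module.Finite D V := Module.Finite.of_restrictScalars_finite ℚ D V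
  let e : Basis (Fin (finrank D V)) D V := Module.finBasis D V
  obtain ⟨i₀⟩ : Nonempty (Fin (finrank D V)) := by
    haveI : Nontrivial V := IsSimpleModule.nontrivial A V
    exact e.index_nonempty
  obtain ⟨B, hB, hdiv⟩ := exists_division_bound (D := D)
  obtain ⟨r, s, hs⟩ := Submodule.fg_iff_exists_fin_generating_family.1 hB.1
  -- the endomorphisms of the coordinates
  let f : Fin (finrank D V) → Fin (finrank D V) → D → Module.End D V := fun i j d =>
    { toFun := fun v => (e.repr v i * d) • e j
      map_add' := fun v w => by rw [map_add, Finsupp.add_apply, add_mul, add_smul]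
      map_smul' := fun c v => by
        rw [map_smul, Finsupp.smul_apply, smul_eq_mul, mul_assoc, mul_smul, RingHom.id_apply] }
  have hdense : ∀ g : Module.End D V, ∃ a : A, ∀ v : V, a • v = g v := fun g => by
    obtain ⟨a, ha⟩ := Module.Finite.toModuleEnd_moduleEnd_surjective (R := A) (M := V) g
    exact ⟨a, fun v => LinearMap.congr_fun ha v⟩
  choose a ha using fun p : (Fin (finrank D V) × Fin (finrank D V)) × Option (Fin r) =>
    hdense (f p.1.1 p.1.2 (p.2.elim 1 s))
  obtain ⟨M, hM, hMR⟩ := hR.exists_nsmul_mem a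
  obtain ⟨k, hk, hkd⟩ := hdiv M hM
  have hact : ∀ L : Submodule ℤ V, IsStable R L → ∀ i j o, ∀ v ∈ L,
      M • ((e.repr v i * Option.elim o 1 s) • e j) ∈ L := fun L hst i j o v hv => by
    have h := hst _ (hMR ((i, j), o)) v hv
    rwa [smul_assoc, ha] at h
  let inc : D →ₗ[ℤ] V := ((LinearMap.toSpanSingleton D V (e i₀)).restrictScalars ℤ)
  have hinc : Function.Injective inc := fun x y h => by
    have := congrArg (fun v => e.repr v i₀) h
    simpa [inc] using this
  let coord : Fin (finrank D V) → D →ₗ[ℤ] V := fun i =>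
    (LinearMap.toSpanSingleton D V (e i)).restrictScalars ℤ
  refine ⟨⨆ i, B.map (coord i), ⟨Submodule.fg_iSup _ fun i => hB.1.map _, fun v => ?_⟩, M * k,
    mul_ne_zero hM hk, fun L hL hst => ?_⟩
  · obtain ⟨n, hn, hnB⟩ := hB.exists_nsmul_mem fun i => e.repr v i
    refine ⟨n, hn, ?_⟩
    rw [← e.sum_repr v, Finset.smul_sum]
    refine sum_mem fun i _ => Submodule.mem_iSup_of_mem i ⟨n • e.repr v i, hnB i, ?_⟩
    exact smul_assoc n (e.repr v i) (e i)
  -- the coefficients at `e i₀`
  set Λ : Submodule ℤ D := L.comap inc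
  have hΛ : ∀ y ∈ Λ, y • e i₀ ∈ L := fun y hy => hy
  have hΛfull : IsFull Λ := hL.comap inc hinc
  have hΛst : ∀ y ∈ Λ, ∀ b ∈ B, M • (y * b) ∈ Λ := fun y hy b hb => by
    rw [← hs] at hb
    induction hb using Submodule.span_induction with
    | mem b hb =>
      obtain ⟨t, rfl⟩ := hb
      have h := hact L hst i₀ i₀ (some t) _ (hΛ y hy)
      show (M • (y * s t)) • e i₀ ∈ L
      rw [map_smul, e.repr_self, Finsupp.smul_apply, Finsupp.single_eq_same, smul_eq_mul,
        mul_one] at h
      rwa [smul_assoc]
    | zero => simp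
    | add b c _ _ hb hc => rw [mul_add, smul_add]; exact add_mem hb hc
    | smul c b _ hb => rw [mul_smul_comm, smul_comm]; exact Λ.smul_mem c hb
  obtain ⟨d, hd, h1, h2⟩ := hkd Λ hΛfull hΛst
  let φ : V ≃ₗ[A] V := LinearEquiv.ofLinearMap (f := d) (g := d⁻¹)
    (LinearMap.ext fun v => LinearMap.congr_fun (mul_inv_cancel₀ hd) v)
    (LinearMap.ext fun v => LinearMap.congr_fun (inv_mul_cancel₀ hd) v)
  have hφ : ∀ v, φ v = d • v := fun v => rfl
  have hφ' : ∀ v, φ.symm v = d⁻¹ • v := fun v => rfl
  refine ⟨φ, fun v hv => ?_, fun v hv => ?_⟩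
  · rw [hφ, ← e.sum_repr v, Finset.smul_sum, Finset.smul_sum]
    refine sum_mem fun i _ => Submodule.mem_iSup_of_mem i ⟨k • (d * (M • e.repr v i)), h1 _ ?_, ?_⟩
    · show (M • e.repr v i) • e i₀ ∈ L
      have h := hact L hst i i₀ none v hv
      rw [Option.elim, mul_one] at h
      rwa [smul_assoc]
    · show (k • (d * (M • e.repr v i))) • e i = _
      rw [mul_smul_comm, ← mul_smul k M, mul_comm k M, smul_assoc, mul_smul d]
  · rw [hφ']
    refine Submodule.iSup_induction _ (motive := fun v => (M * k) • d⁻¹ • v ∈ L) hv ?_ (by simp)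
      fun x y hx hy => by rw [smul_add, smul_add]; exact add_mem hx hy
    rintro i _ ⟨b, hb, rfl⟩
    show (M * k) • d⁻¹ • b • e i ∈ L
    have h := hact L hst i₀ i none _ (hΛ _ (h2 b hb))
    rw [map_smul, e.repr_self, Finsupp.smul_apply, Finsupp.single_eq_same, smul_eq_mul, mul_one,
      Option.elim, mul_one, smul_assoc, mul_smul d⁻¹] at h
    rwa [mul_smul]

end FA.JordanZassenhaus

end
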